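/-
S37 / [PULL] (helper155), abstract part.

For embeddings of function fields (Prelude language `Place`, `Divisor`, `Pic0`, `…Along`):

* `hasLocalGenerators`            : `H818.HasLocalGenerators` always holds (weak approximation);
* `normCompat_of_span`            : `H818.NormCompat` for a square with equal degrees in which the
                                    image of `F₁` spans `G₁` over `G` (basis transport);
* `pullbackPic0Along_smul`        : `π^*` is equivariant for intertwined semilinear automorphisms;
* `pushforwardAlong_pullbackAlong`: `π_* π^* D = [G : F] • D`;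
* `pullbackPic0Along_eq_zero`     : `π^*` is injective on torsion prime to `[G : F]`.
-/
import Mathlib
import Fermat.Prelude.Def_AlgebraicCurve_Correspondence
import Fermat.Agent.S37.H818.HeckeComm
import Fermat.Agent.S29.H571.Equivariant
import Fermat.Agent.Lib.RR.H623.WeakApprox

set_option autoImplicit false
set_option linter.style.haveILetI false

noncomputable section

namespace Fermat.Agent.S37.H155

open AlgebraicCurve Fermat.Agent.S37.H818

variable {K F F₁ G G₁ : Type*} [Field K] [Field F] [Field F₁] [Field G] [Field G₁]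
  [Algebra K F] [Algebra K F₁] [Algebra K G] [Algebra K G₁]

/-! ### Local generators -/

/-- Local generators always exist, by the weak approximation theorem. -/
theorem hasLocalGenerators [HasPrincipalDivisors K F₁] (a : F →ₐ[K] F₁)
    (ha : a.toRingHom.IsIntegral) : HasLocalGenerators a ha := by
  classical
  intro w
  obtain ⟨z, hz⟩ := Fermat.Agent.Lib.RR.H623.weak_approximation
    (Place.fiberAlong a ha (w.restrictAlong a ha)) (fun _ => (0 : F₁))
    (fun v => if v = w then 1 else 0)
  have hw := hz w (Place.mem_fiberAlong.mpr rfl)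
  refine ⟨z, ?_, ?_, ?_⟩
  · simpa using hw.1
  · have h2 := hw.2
    simp only [sub_zero, if_true] at h2
    rw [h2]
    exact one_ne_zero
  · intro w' hne hw'
    have h2 := (hz w' (Place.mem_fiberAlong.mpr hw')).2
    simpa [hne] using h2

/-! ### Norm compatibility -/

/-- **Norm compatibility by basis transport.**  In a commutative square with
`[G₁ : G] = [F₁ : F] < ∞` in which the image of `F₁` spans `G₁` over `G`, norms are compatible. -/
theorem normCompat_of_span (a : F →ₐ[K] F₁) (i : F →ₐ[K] G) (a' : G →ₐ[K] G₁)
    (i₁ : F₁ →ₐ[K] G₁) (hsq : i₁.comp a = a'.comp i)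
    (hfin : FiniteAlong K a)
    (hdeg : finrankAlong K a' = finrankAlong K a)
    (hspan : ∀ g : G₁, g ∈ (letI := algebraAlong a'; Submodule.span G (Set.range i₁))) :
    NormCompat a i a' i₁ := by
  letI := algebraAlong a
  letI := algebraAlong a'
  haveI : Module.Finite F F₁ := hfin
  intro f
  show Algebra.norm G (i₁ f) = i (Algebra.norm F f)
  let b := Module.finBasis F F₁
  have hsq' : ∀ c : F, i₁ (algebraMap F F₁ c) = algebraMap G G₁ (i c) := fun c =>
    congrArg (fun φ : F →ₐ[K] G₁ => φ c) hsq
  have hmap : ∀ y : F₁, i₁ y = ∑ r, (i (b.repr y r)) • i₁ (b r) := by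
    intro y
    conv_lhs => rw [← b.sum_repr y]
    rw [map_sum]
    refine Finset.sum_congr rfl fun r _ => ?_
    rw [Algebra.smul_def, map_mul, hsq', Algebra.smul_def]
  have hspan' : ⊤ ≤ Submodule.span G (Set.range (fun r => i₁ (b r))) := by
    intro g _
    have hg := hspan g
    refine Submodule.span_le.mpr ?_ hg
    rintro _ ⟨y, rfl⟩
    rw [SetLike.mem_coe, hmap y]
    exact Submodule.sum_mem _ fun r _ =>
      Submodule.smul_mem _ _ (Submodule.subset_span ⟨r, rfl⟩)
  have hcard : Fintype.card (Fin (Module.finrank F F₁)) = Module.finrank G G₁ := by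
    rw [Fintype.card_fin]
    exact hdeg.symm
  let b' : Module.Basis (Fin (Module.finrank F F₁)) G G₁ :=
    basisOfTopLeSpanOfCardEqFinrank (fun r => i₁ (b r)) hspan' hcard
  have hb' : ∀ r, b' r = i₁ (b r) := fun r => by
    simp only [b', coe_basisOfTopLeSpanOfCardEqFinrank]
  have hrepr : ∀ (y : F₁) (r : Fin (Module.finrank F F₁)),
      b'.repr (i₁ y) r = i (b.repr y r) := by
    intro y r
    have h1 : i₁ y = ∑ r, (i (b.repr y r)) • b' r := by
      rw [hmap y]
      exact Finset.sum_congr rfl fun r _ => by rw [hb']
    rw [h1, map_sum, Finsupp.finsetSum_apply]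
    simp only [map_smul, Module.Basis.repr_self, Finsupp.smul_single, smul_eq_mul, mul_one,
      Finsupp.single_apply]
    rw [Finset.sum_ite_eq' Finset.univ r]
    simp
  rw [Algebra.norm_eq_matrix_det b', Algebra.norm_eq_matrix_det b]
  have hdet := RingHom.map_det (i : F →+* G) (Algebra.leftMulMatrix b f)
  rw [show (i (Algebra.leftMulMatrix b f).det : G)
    = (i : F →+* G) (Algebra.leftMulMatrix b f).det from rfl, hdet]
  congr 1
  ext r c
  rw [Algebra.leftMulMatrix_eq_repr_mul, RingHom.mapMatrix_apply, Matrix.map_apply,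
    Algebra.leftMulMatrix_eq_repr_mul, hb', ← map_mul, hrepr]
  rfl

/-! ### Galois equivariance -/

/-- `π^*` on `Pic0` is equivariant for intertwined semilinear automorphisms. -/
theorem pullbackPic0Along_smul [HasPrincipalDivisors K G] (i : F →ₐ[K] G)
    (hi : i.toRingHom.IsIntegral) (hFI : FundamentalIdentityAlong K i hi)
    {g : SemilinearAut K F} {g' : SemilinearAut K G}
    (h : SemilinearAut.IntertwinesAlong (i : F →+* G) g g') (x : Pic0 K F) :
    pullbackPic0Along i hi hFI (g • x) = g' • pullbackPic0Along i hi hFI x := by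
  obtain ⟨D, rfl⟩ := Pic0.mk_surjective x
  rw [SemilinearAut.pic0_smul_mk, pullbackPic0Along_mk, pullbackPic0Along_mk,
    SemilinearAut.pic0_smul_mk]
  refine congrArg Pic0.mk (Subtype.ext ?_)
  rw [coe_pullbackDegZeroAlong, SemilinearAut.coe_degZeroSMulHom,
    SemilinearAut.coe_degZeroSMulHom, coe_pullbackDegZeroAlong]
  exact Fermat.Agent.S29.H571.pullbackAlong_smul i hi h (D : Divisor K F)

/-! ### `π_* π^* = deg` -/

/-- The sum formula `∑ e f = n` along a homomorphism. -/
def SumRamificationInertiaAlong [HasPrincipalDivisors K G] (i : F →ₐ[K] G)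
    (hi : i.toRingHom.IsIntegral) : Prop :=
  letI := algebraAlong i
  haveI := isScalarTower_along i
  haveI := isIntegral_along i hi
  SumRamificationInertia K F G

section Instance

variable [Algebra F G] [IsScalarTower K F G] [Algebra.IsIntegral F G] [HasPrincipalDivisors K G]

theorem pushforward_pullback [SumRamificationInertia K F G] (D : Divisor K F) :
    Divisor.pushforward F (Divisor.pullback G D) = (Module.finrank F G : ℤ) • D := by
  classical
  induction D using Finsupp.induction with
  | zero => simp
  | single_add v n D _ _ ih =>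
    rw [map_add, map_add, ih, smul_add]
    congr 1
    rw [Divisor.pullback_single, map_sum]
    have h1 : ∀ w ∈ v.fiber G, Divisor.pushforward F
        (Finsupp.single w (n * (w.ramificationIndex F : ℤ)))
        = Finsupp.single v (n * ((w.ramificationIndex F : ℤ) * (w.inertiaDeg F : ℤ))) := by
      intro w hw
      rw [Divisor.pushforward_single, Place.mem_fiber.mp hw, mul_assoc]
    rw [Finset.sum_congr rfl h1, ← Finsupp.single_finsetSum, ← Finset.mul_sum,
      SumRamificationInertia.sum_ramificationIndex_mul_inertiaDeg (K := K) (F := F) (F' := G) v,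
      Finsupp.smul_single, smul_eq_mul, mul_comm]

end Instance

/-- `π_* π^* D = [G : F] • D`. -/
theorem pushforwardAlong_pullbackAlong [HasPrincipalDivisors K G] (i : F →ₐ[K] G)
    (hi : i.toRingHom.IsIntegral) (hS : SumRamificationInertiaAlong i hi) (D : Divisor K F) :
    Divisor.pushforwardAlong i hi (Divisor.pullbackAlong i hi D)
      = (finrankAlong K i : ℤ) • D := by
  letI := algebraAlong i
  haveI := isScalarTower_along i
  haveI := isIntegral_along i hi
  haveI : SumRamificationInertia K F G := hS
  exact pushforward_pullback D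

/-! ### Injectivity on torsion -/

theorem mk_eq_zero_iff (D : Divisor.degZero (K := K) (F := F)) :
    Pic0.mk D = 0 ↔ (D : Divisor K F) ∈ Divisor.principal (K := K) (F := F) := by
  unfold Pic0.mk
  rw [QuotientAddGroup.eq_zero_iff, AddSubgroup.mem_addSubgroupOf]

/-- **`π^*` is injective on torsion prime to the degree.** -/
theorem pullbackPic0Along_eq_zero [HasPrincipalDivisors K G] (i : F →ₐ[K] G)
    (hi : i.toRingHom.IsIntegral) (hFI : FundamentalIdentityAlong K i hi)
    (hS : SumRamificationInertiaAlong i hi)
    (hfin : FiniteAlong K i) (hN : NormFormulaAlong K i hfin)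
    (m : ℕ) (hcop : Nat.Coprime m (finrankAlong K i)) (x : Pic0 K F) (hm : m • x = 0)
    (hx : pullbackPic0Along i hi hFI x = 0) : x = 0 := by
  obtain ⟨D, rfl⟩ := Pic0.mk_surjective x
  rw [pullbackPic0Along_mk, mk_eq_zero_iff, coe_pullbackDegZeroAlong] at hx
  have h1 : (finrankAlong K i : ℤ) • (D : Divisor K F) ∈ Divisor.principal (K := K) (F := F) := by
    rw [← pushforwardAlong_pullbackAlong i hi hS]
    exact Divisor.isPrincipal_pushforwardAlong i hi hfin hN hx
  have h2 : (m : ℤ) • (D : Divisor K F) ∈ Divisor.principal (K := K) (F := F) := by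
    have h3 : Pic0.mk (m • D) = 0 := hm
    rw [mk_eq_zero_iff] at h3
    rw [natCast_zsmul]
    exact h3
  rw [mk_eq_zero_iff]
  have hb := Int.gcd_eq_gcd_ab (m : ℤ) (finrankAlong K i : ℤ)
  have hg : ((Int.gcd (m : ℤ) (finrankAlong K i : ℤ) : ℕ) : ℤ) = 1 := by
    rw [Int.gcd_natCast_natCast]
    exact_mod_cast hcop
  rw [hg] at hb
  have e : (D : Divisor K F)
      = Int.gcdA (m : ℤ) (finrankAlong K i : ℤ) • ((m : ℤ) • (D : Divisor K F))
        + Int.gcdB (m : ℤ) (finrankAlong K i : ℤ) • ((finrankAlong K i : ℤ) • (D : Divisor K F)) := by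
    rw [smul_smul, smul_smul, ← add_smul, mul_comm _ (m : ℤ), mul_comm _ (finrankAlong K i : ℤ),
      ← hb, one_smul]
  rw [e]
  exact add_mem (AddSubgroup.zsmul_mem _ h2 _) (AddSubgroup.zsmul_mem _ h1 _)

end Fermat.Agent.S37.H155

end
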