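/-
S37 / [PULL] (helper155), modular part: the interface `Core.PullData N (N * a) ℓ`.

For primes `a ≠ ℓ` with `a ∤ N` and `a + 1` a power of `ℓ` (e.g. `(ℓ, a) = (3, 2)` or `(2, 3)`)
the pullback `π^* : J₀(N) → J₀(N a)` along the degeneracy map `X₀(N a) → X₀(N)`
(`= heckeAlphaBar ℚ̄ N a` on function fields) is Galois equivariant, injective on torsion prime
to `ℓ` and commutes with `T_ℓ`.
-/
import Mathlib
import Fermat.Agent.S37.H155.PullAbstract
import Fermat.Agent.S37.Core.AssemblePull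
import Fermat.Agent.Lib.FF398.Hecke
import Fermat.Agent.Lib.X0Deg.Alpha
import Fermat.Agent.S28.H988.Degree
import Fermat.Agent.S28.H988.Upper
import Fermat.Agent.S29.H571.HeckeGalois

set_option autoImplicit false
set_option linter.style.haveILetI false
set_option linter.unusedSectionVars false

noncomputable section

namespace Fermat.Agent.S37.H155

open ModularCurve AlgebraicCurve IntermediateField Fermat.Agent.S37.H818
open Fermat.Agent.S24 Fermat.Agent.Lib.FF398 Fermat.Agent.Lib.X0Deg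

/-! ### Spanning in a simple extension -/

section Span

variable {K E : Type*} [Field K] [Field E] [Algebra K E]

/-- If `D = C(x)` with `x ∈ B` integral over `C`, then the image of `B` spans `D` over `C`. -/
theorem mem_span_range_inclusion {B C D : IntermediateField K E} (hBD : B ≤ D) (hCD : C ≤ D)
    (x : E) (hxB : x ∈ B) (hx : IsIntegral C x)
    (hD : ∀ d ∈ D, d ∈ IntermediateField.adjoin C {x}) (g : D) :
    g ∈ (letI := algebraAlong (IntermediateField.inclusion hCD);
      Submodule.span C (Set.range (IntermediateField.inclusion hBD))) := by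
  letI := algebraAlong (IntermediateField.inclusion hCD)
  have h1 : (g : E) ∈ (IntermediateField.adjoin C {x}).toSubalgebra := hD g g.2
  rw [IntermediateField.adjoin_simple_toSubalgebra_of_isAlgebraic hx.isAlgebraic,
    Algebra.adjoin_singleton_eq_range_aeval] at h1
  obtain ⟨p, hp⟩ := h1
  have hp' : (g : E) = ∑ k ∈ Finset.range (p.natDegree + 1), ((p.coeff k : C) : E) * x ^ k := by
    rw [← hp]
    show Polynomial.aeval x p = _
    rw [Polynomial.aeval_eq_sum_range]
    refine Finset.sum_congr rfl fun k _ => ?_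
    rw [Algebra.smul_def]
    rfl
  have hg : g = ∑ k ∈ Finset.range (p.natDegree + 1),
      (p.coeff k : C) • IntermediateField.inclusion hBD ⟨x ^ k, pow_mem hxB k⟩ := by
    apply Subtype.ext
    rw [hp']
    have hval : ∀ (s : Finset ℕ) (f : ℕ → D), ((∑ k ∈ s, f k : D) : E) = ∑ k ∈ s, (f k : E) :=
      fun s f => map_sum D.val f s
    rw [hval]
    refine Finset.sum_congr rfl fun k _ => ?_
    rw [Algebra.smul_def]
    rfl
  rw [hg]
  exact Submodule.sum_mem _ fun k _ =>
    Submodule.smul_mem _ _ (Submodule.subset_span ⟨_, rfl⟩)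

end Span

/-! ### The modular relations at all primes -/

open Classical in
/-- A choice of modular polynomials at all primes. -/
def phiAll (r : ℕ) : Polynomial (Polynomial ℤ) :=
  if h : r.Prime then
    haveI : NeZero r := ⟨h.ne_zero⟩
    (Classical.choice (Fermat.Agent.S28.H807.nonempty_modPolyData r h)).Φ
  else 0

theorem phiRel_phiAll (k : Type*) [Field k] (r : ℕ) (hr : r.Prime) :
    Fermat.Agent.S28.H988.PhiRel k r (phiAll r) := by
  haveI : NeZero r := ⟨hr.ne_zero⟩
  rw [phiAll, dif_pos hr]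
  exact Fermat.Agent.S28.H988.phiRel_of_modPolyData k r _

/-! ### Generation: `F̄_{Mℓ} = F̄_M(j(q^{ℓ^e}))` -/

section Gen

open Fermat.Agent.S28.H988

variable (M ℓ : ℕ)

theorem mem_adjoin_topGen (hM : M ≠ 0) (hℓ : ℓ.Prime)
    (C : IntermediateField Kbar (LaurentSeries Kbar))
    (hC : C = modularFunctionFieldFullC Kbar M)
    (d : LaurentSeries Kbar) (hd : d ∈ modularFunctionFieldBar (M * ℓ)) :
    d ∈ IntermediateField.adjoin C {topGen Kbar M ℓ} := by
  subst hC
  rw [modularFunctionFieldBar_eq_fullC,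
    full_mul_eq phiAll hM hℓ (fun r hr _ => phiRel_phiAll Kbar r hr),
    IntermediateField.mem_restrictScalars] at hd
  exact hd

theorem isIntegral_topGen (hM : M ≠ 0) (hℓ : ℓ.Prime)
    (C : IntermediateField Kbar (LaurentSeries Kbar))
    (hC : C = modularFunctionFieldFullC Kbar M) :
    IsIntegral C (topGen Kbar M ℓ) := by
  subst hC
  obtain ⟨Q, hQm, -, hQr⟩ :=
    exists_monic_root_topGen (phiAll ℓ) hM hℓ (phiRel_phiAll Kbar ℓ hℓ)
  exact ⟨Q, hQm, by rwa [← Polynomial.aeval_def]⟩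

theorem topGen_mem_bar (N a : ℕ) (hN : N ≠ 0) (ha : a ≠ 0) (hℓ : ℓ.Prime) (hℓa : ¬ ℓ ∣ a) :
    topGen Kbar (N * a) ℓ ∈ modularFunctionFieldBar (N * ℓ) := by
  rw [modularFunctionFieldBar_eq_fullC]
  have hNℓ : N * ℓ ≠ 0 := Nat.mul_ne_zero hN hℓ.ne_zero
  refine jd_mem_full Kbar hNℓ ?_
  rw [pow_dvd_mul_iff hN hℓ, topExp, topExp, Nat.factorization_mul hN ha]
  simp only [Finsupp.coe_add, Pi.add_apply]
  rw [Nat.factorization_eq_zero_of_not_dvd hℓa]

end Gen

/-! ### The square -/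

section Square

variable (N a ℓ : ℕ) [NeZero N] [NeZero a] [NeZero ℓ]

theorem le_top_level : modularFunctionFieldBar (N * ℓ) ≤ modularFunctionFieldBar (N * a * ℓ) :=
  modularFunctionFieldBar_mono ⟨a, by ring⟩

/-- The inclusion `F̄_{Nℓ} ⊆ F̄_{Naℓ}`. -/
def iTop : modularFunctionFieldBar (N * ℓ) →ₐ[Kbar] modularFunctionFieldBar (N * a * ℓ) :=
  IntermediateField.inclusion (le_top_level N a ℓ)

theorem coe_iTop (x : modularFunctionFieldBar (N * ℓ)) :
    ((iTop N a ℓ x : modularFunctionFieldBar (N * a * ℓ)) : LaurentSeries Kbar)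
      = (x : LaurentSeries Kbar) :=
  IntermediateField.coe_inclusion _ x

theorem sq_alpha : (iTop N a ℓ).comp (heckeAlphaBar Kbar N ℓ)
    = (heckeAlphaBar Kbar (N * a) ℓ).comp (heckeAlphaBar Kbar N a) := by
  apply AlgHom.ext
  intro x
  apply Subtype.ext
  rw [AlgHom.comp_apply, AlgHom.comp_apply, coe_iTop, coe_heckeAlphaBar, coe_heckeAlphaBar,
    coe_heckeAlphaBar]

theorem sq_beta : (iTop N a ℓ).comp (heckeBetaBar Kbar N ℓ)
    = (heckeBetaBar Kbar (N * a) ℓ).comp (heckeAlphaBar Kbar N a) := by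
  apply AlgHom.ext
  intro x
  apply Subtype.ext
  rw [AlgHom.comp_apply, AlgHom.comp_apply, coe_iTop, coe_heckeBetaBar, coe_heckeBetaBar,
    coe_heckeAlphaBar]

theorem iTop_isIntegral : (iTop N a ℓ).toRingHom.IsIntegral := by
  have hfin : FiniteAlong Kbar (iTop N a ℓ) :=
    finiteAlong_of_functionField _ (jF (N * ℓ)) (transcendental_jF (N * ℓ)) (jF (N * a * ℓ))
      (transcendental_jF (N * a * ℓ))
  letI := algebraAlong (iTop N a ℓ)
  haveI : Module.Finite (FF (N * ℓ)) (FF (N * a * ℓ)) := hfin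
  exact fun x => Algebra.IsIntegral.isIntegral (R := FF (N * ℓ)) x

theorem sumRamificationInertiaAlong_alpha :
    SumRamificationInertiaAlong (heckeAlphaBar Kbar N a) (heckeAlphaBarIntegral N a) := by
  letI := algebraAlong (heckeAlphaBar Kbar N a)
  haveI := isScalarTower_along (heckeAlphaBar Kbar N a)
  haveI : Module.Finite (FF N) (FF (N * a)) := finiteAlong_alpha N a
  haveI : CharZero (FF N) :=
    charZero_of_injective_algebraMap (algebraMap Kbar (FF N)).injective
  exact sumRamificationInertia (K := Kbar) (F := FF N) (F' := FF (N * a)) (deg_eq_one_FF (N * a))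

theorem normCompat_square (hℓ : ℓ.Prime) (ha : a.Prime) (hne : a ≠ ℓ) :
    NormCompat (heckeAlphaBar Kbar N ℓ) (heckeAlphaBar Kbar N a)
      (heckeAlphaBar Kbar (N * a) ℓ) (iTop N a ℓ) := by
  refine normCompat_of_span _ _ _ _ (sq_alpha N a ℓ) (finiteAlong_alpha N ℓ)
    (finrankAlong_heckeAlphaBar_square N a ℓ ha hℓ hne) ?_
  have hℓa : ¬ ℓ ∣ a := fun h => hne ((Nat.prime_dvd_prime_iff_eq hℓ ha).mp h).symm
  have hM : N * a ≠ 0 := NeZero.ne _
  intro g
  exact mem_span_range_inclusion (le_top_level N a ℓ) (le_mul (N * a) ℓ)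
    (Fermat.Agent.S28.H988.topGen Kbar (N * a) ℓ)
    (topGen_mem_bar ℓ N a (NeZero.ne N) (NeZero.ne a) hℓ hℓa)
    (isIntegral_topGen (N * a) ℓ hM hℓ _
      (Fermat.Agent.S28.H988.modularFunctionFieldBar_eq_fullC (N * a)))
    (fun d hd => mem_adjoin_topGen (N * a) ℓ hM hℓ _
      (Fermat.Agent.S28.H988.modularFunctionFieldBar_eq_fullC (N * a)) d hd) g

end Square

/-! ### The pull datum -/

section PullData

variable (N a ℓ : ℕ) [NeZero N] [NeZero a] [NeZero ℓ]

/-- The pullback `π^* : J₀(N) → J₀(N a)`. -/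
def pullHom : JZero N →+ JZero (N * a) :=
  pullbackPic0Along (heckeAlphaBar Kbar N a) (heckeAlphaBarIntegral N a)
    (fundamentalIdentityAlong_alpha N a)

theorem pullHom_galois (σ : Kbar ≃ₐ[ℚ] Kbar) (x : JZero N) :
    pullHom N a (σ • x) = σ • pullHom N a x := by
  rw [galois_smul_pic0_def, galois_smul_pic0_def]
  exact pullbackPic0Along_smul _ _ _ (Fermat.Agent.S29.H571.intertwines_heckeAlphaBar N a σ) x

theorem pullHom_inj_torsion (ha : a.Prime) (haN : ¬ a ∣ N) (m : ℕ)
    (hcop : Nat.Coprime m (a + 1)) (x : JZero N) (hm : m • x = 0) (hx : pullHom N a x = 0) :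
    x = 0 := by
  refine pullbackPic0Along_eq_zero (heckeAlphaBar Kbar N a) (heckeAlphaBarIntegral N a)
    (fundamentalIdentityAlong_alpha N a) (sumRamificationInertiaAlong_alpha N a)
    (finiteAlong_alpha N a) (normFormulaAlong_alpha N a) m ?_ x hm hx
  rw [finrankAlong_heckeAlphaBar_of_not_dvd N a ha haN]
  exact hcop

theorem pullHom_hecke (hℓ : ℓ.Prime) (ha : a.Prime) (hne : a ≠ ℓ) (x : JZero N) :
    pullHom N a (heckeOperatorAlong Kbar N ℓ x)
      = heckeOperatorAlong Kbar (N * a) ℓ (pullHom N a x) := by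
  rw [heckeOperatorAlong_eq_heckePic0Bar N ℓ, heckeOperatorAlong_eq_heckePic0Bar (N * a) ℓ]
  exact pullbackPic0Along_correspondence (heckeAlphaBar Kbar N ℓ) (heckeBetaBar Kbar N ℓ)
    (heckeAlphaBar Kbar N a) (heckeAlphaBar Kbar (N * a) ℓ) (heckeBetaBar Kbar (N * a) ℓ)
    (iTop N a ℓ) (heckeAlphaBarIntegral N ℓ) (heckeBetaBarIntegral N ℓ)
    (heckeAlphaBarIntegral N a) (heckeAlphaBarIntegral (N * a) ℓ)
    (heckeBetaBarIntegral (N * a) ℓ) (iTop_isIntegral N a ℓ) (sq_alpha N a ℓ) (sq_beta N a ℓ)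
    (fundamentalIdentityAlong_beta N ℓ) (finiteAlong_alpha N ℓ) (normFormulaAlong_alpha N ℓ)
    (fundamentalIdentityAlong_beta (N * a) ℓ) (finiteAlong_alpha (N * a) ℓ)
    (normFormulaAlong_alpha (N * a) ℓ) (fundamentalIdentityAlong_alpha N a)
    (normCompat_square N a ℓ hℓ ha hne)
    (hasLocalGenerators (heckeAlphaBar Kbar N ℓ) (heckeAlphaBarIntegral N ℓ)) x

/-- **[PULL]**: for primes `a ≠ ℓ`, `a ∤ N`, `a + 1` a power of `ℓ`. -/
def pullData (hℓ : ℓ.Prime) (ha : a.Prime) (hne : a ≠ ℓ) (haN : ¬ a ∣ N)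
    (hpow : ∃ k : ℕ, a + 1 = ℓ ^ k) : Fermat.Agent.S37.Core.PullData N (N * a) ℓ where
  pull := pullHom N a
  galois := pullHom_galois N a
  inj_torsion := by
    intro m hm x hmx hx
    obtain ⟨k, hk⟩ := hpow
    refine pullHom_inj_torsion N a ha haN m ?_ x hmx hx
    rw [hk]
    exact Nat.Coprime.pow_right k ((Nat.Prime.coprime_iff_not_dvd hℓ).mpr hm).symm
  hecke := pullHom_hecke N a ℓ hℓ ha hne

/-- `ℓ = 3`, auxiliary prime `2 ∤ N`. -/
def pullData_three (hN : ¬ 2 ∣ N) : Fermat.Agent.S37.Core.PullData N (N * 2) 3 :=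
  pullData N 2 3 Nat.prime_three Nat.prime_two (by decide) hN ⟨1, by norm_num⟩

/-- `ℓ = 2`, auxiliary prime `3 ∤ N`. -/
def pullData_two (hN : ¬ 3 ∣ N) : Fermat.Agent.S37.Core.PullData N (N * 3) 2 :=
  pullData N 3 2 Nat.prime_two Nat.prime_three (by decide) hN ⟨2, by norm_num⟩

end PullData

end Fermat.Agent.S37.H155

end
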