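/-
S37 / [PULL] (helper155): the exact statement `node_pull` of the S37 board
(origin/helper37 `Fermat/Agent/S37/Core/Skeleton3.lean`).
-/
import Fermat.Agent.S37.H155.Pull

set_option autoImplicit false

noncomputable section

namespace Fermat.Agent.S37.H155

open ModularCurve Fermat.Agent.S37.Core

/-- NODE [PULL] of the S37 board, exact statement. -/
theorem node_pull (N a ℓ : ℕ) [NeZero N] [NeZero a] [NeZero ℓ] (hℓ : ℓ.Prime)
    (ha : (ℓ = 3 ∧ a = 2) ∨ (ℓ = 2 ∧ a = 3)) (haN : ¬ a ∣ N) (hℓN : ¬ ℓ ∣ N) :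
    Nonempty (PullData N (N * a) ℓ) := by
  rcases ha with ⟨rfl, rfl⟩ | ⟨rfl, rfl⟩
  · exact ⟨pullData N 2 3 hℓ Nat.prime_two (by decide) haN ⟨1, by norm_num⟩⟩
  · exact ⟨pullData N 3 2 hℓ Nat.prime_three (by decide) haN ⟨2, by norm_num⟩⟩

end Fermat.Agent.S37.H155

end
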